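import Fermat.Agent.LJ3.Main

/-!
# S39/S40 block [J], with an arbitrary copy of the big field
-/

set_option autoImplicit false
set_option linter.unusedSectionVars false
set_option linter.style.haveILetI false

noncomputable section

open Module ModularCurve AlgebraicCurve

attribute [-instance] Fermat.Agent.X0Places.ffField Fermat.Agent.X0Places.ffAlgebra

namespace Fermat.Agent.LJ3

open Fermat.Agent.TorsCmp Fermat.Agent.Degen Fermat.Agent.HeckeRed Fermat.Agent.FunField

local notation "Qb" => AlgebraicClosure ℚ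
local notation "GQ" => (AlgebraicClosure ℚ ≃ₐ[ℚ] AlgebraicClosure ℚ)

/-- **Block [J]**, in the form used for the core theorem. -/
theorem inj_input {M M' p : ℕ} [NeZero M] [NeZero M'] [hp : Fact p.Prime] (hp2 : p ≠ 2)
    {E : Type} [AddCommGroup E] [Module (ZMod p) E] [DistribMulAction GQ E]
    (hdim : Module.finrank (ZMod p) E = 2)
    (hirr : ∀ W : Submodule (ZMod p) E, (∀ g : GQ, ∀ x ∈ W, g • x ∈ W) → W = ⊥ ∨ W = ⊤)
    {E₄ : IntermediateField Qb (LaurentSeries Qb)} [IsFF Qb E₄]
    (hE₄ : E₄ = modularFunctionFieldFullC Qb M')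
    (δ : modularFunctionFieldBar M →ₐ[Qb] E₄)
    (hδ : ∀ x, (δ x : LaurentSeries Qb) = x)
    (hdeg : finrankAlong Qb δ = 6 ∨ finrankAlong Qb δ = 4) :
    ∀ ι : E →+ JZero M, Function.Injective ι → (∀ (g : GQ) (x : E), ι (g • x) = g • ι x) →
      (∀ x, p • ι x = 0) → ∀ x : E, pullPic δ (ι x) = 0 → x = 0 := by
  have h : E₄ = modularFunctionFieldBar M' :=
    hE₄.trans (HeckeRed.laurentBaseChange_full Qb M').symm
  subst h
  intro ι hι hιg _
  exact pullPic_injective' hp2 hdim hirr ι hι hιg δ hδ hdeg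

end Fermat.Agent.LJ3
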