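import Mathlib

/-!
# Kummer theory: two independent radicals generate an extension of degree `p ^ 2`
-/

set_option autoImplicit false

namespace Fermat.Agent.LJ3

open Polynomial IntermediateField Module

section One

variable {F F' : Type*} [Field F] [Field F'] [Algebra F F'] {p : ℕ}

theorem isIntegral_of_pow (hp : p.Prime) {f : F} {h : F'} (e : h ^ p = algebraMap F F' f) :
    IsIntegral F h :=
  ⟨X ^ p - C f, monic_X_pow_sub_C f hp.ne_zero, by simp [e]⟩

theorem minpoly_eq (hp : p.Prime) {f : F} {h : F'} (e : h ^ p = algebraMap F F' f)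
    (hf : ∀ g : F, g ^ p ≠ f) : minpoly F h = X ^ p - C f :=
  (minpoly.eq_of_irreducible_of_monic (X_pow_sub_C_irreducible_of_prime hp hf) (by simp [e])
    (monic_X_pow_sub_C f hp.ne_zero)).symm

theorem finrank_adjoin (hp : p.Prime) {f : F} {h : F'} (e : h ^ p = algebraMap F F' f)
    (hf : ∀ g : F, g ^ p ≠ f) : finrank F F⟮h⟯ = p := by
  rw [IntermediateField.adjoin.finrank (isIntegral_of_pow hp e), minpoly_eq hp e hf,
    natDegree_X_pow_sub_C]

/-- an element of `F(h)` with `p`-th power in `F` is `c h ^ j` -/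
theorem exists_eq_mul_pow (hp : p.Prime) {ζ : F} (hζ : IsPrimitiveRoot ζ p) {f : F} {h : F'}
    (e : h ^ p = algebraMap F F' f) (hf : ∀ g : F, g ^ p ≠ f) {g : F⟮h⟯} {f₂ : F}
    (hg : g ^ p = algebraMap F F⟮h⟯ f₂) :
    ∃ j < p, ∃ c : F, g = algebraMap F F⟮h⟯ c * AdjoinSimple.gen F h ^ j := by
  have hint := isIntegral_of_pow hp e
  have hmin := minpoly_eq hp e hf
  set pb := IntermediateField.adjoin.powerBasis hint with hpb
  have hgen : pb.gen = AdjoinSimple.gen F h := IntermediateField.adjoin.powerBasis_gen hint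
  have hdim : pb.dim = p := by
    rw [hpb, IntermediateField.adjoin.powerBasis_dim, hmin, natDegree_X_pow_sub_C]
  have hγ : pb.gen ^ p = algebraMap F F⟮h⟯ f := by
    rw [hgen]
    apply (algebraMap F⟮h⟯ F').injective
    rw [map_pow, AdjoinSimple.algebraMap_gen, e, ← IsScalarTower.algebraMap_apply]
  have hmin' : minpoly F pb.gen = X ^ p - C f := by
    rw [hgen, minpoly_gen, hmin]
  by_cases hg0 : g = 0
  · exact ⟨0, hp.pos, 0, by rw [hg0, map_zero, zero_mul]⟩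
  let σ : F⟮h⟯ →ₐ[F] F⟮h⟯ := pb.lift (ζ • pb.gen) (by
    rw [hmin', map_sub, map_pow, aeval_X, aeval_C, _root_.smul_pow, hγ, hζ.pow_eq_one, one_smul, sub_self])
  have hσγ : σ pb.gen = ζ • pb.gen := pb.lift_gen _ _
  have hσb : ∀ i : Fin pb.dim, σ (pb.basis i) = ζ ^ (i : ℕ) • pb.basis i := by
    intro i
    rw [pb.basis_eq_pow, map_pow, hσγ, _root_.smul_pow]
  have hrepr : ∀ (x : F⟮h⟯) (i : Fin pb.dim), pb.basis.repr (σ x) i = ζ ^ (i : ℕ) * pb.basis.repr x i := by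
    intro x i
    have h1 : σ x = ∑ i : Fin pb.dim, (ζ ^ (i : ℕ) * pb.basis.repr x i) • pb.basis i := by
      conv_lhs => rw [← pb.basis.sum_repr x]
      rw [map_sum]
      refine Finset.sum_congr rfl fun i _ => ?_
      rw [map_smul, hσb, smul_smul, mul_comm]
    rw [h1, pb.basis.repr_sum_self]
  -- `σ g = ζ ^ j g`
  have hζ' : IsPrimitiveRoot (algebraMap F F⟮h⟯ ζ) p :=
    hζ.map_of_injective (algebraMap F F⟮h⟯).injective
  have h1 : (σ g / g) ^ p = 1 := by
    rw [div_pow, ← map_pow, hg, AlgHom.commutes, ← hg, div_self (pow_ne_zero _ hg0)]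
  have : NeZero p := ⟨hp.ne_zero⟩
  obtain ⟨j, hj, hj'⟩ := hζ'.eq_pow_of_pow_eq_one h1
  have h2 : σ g = ζ ^ j • g := by
    rw [Algebra.smul_def, map_pow, hj', div_mul_cancel₀ _ hg0]
  have h3 : ∀ i : Fin pb.dim, (i : ℕ) ≠ j → pb.basis.repr g i = 0 := by
    intro i hi
    have h4 := hrepr g i
    rw [h2, map_smul, Finsupp.smul_apply, smul_eq_mul] at h4
    have h5 : (ζ ^ j - ζ ^ (i : ℕ)) * pb.basis.repr g i = 0 := by rw [sub_mul, h4, sub_self]
    refine (mul_eq_zero.mp h5).resolve_left (sub_ne_zero.mpr fun h6 => hi ?_)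
    exact (hζ.pow_inj hj (by have := i.2; omega) h6).symm
  refine ⟨j, hj, pb.basis.repr g ⟨j, by omega⟩, ?_⟩
  rw [← hgen]
  conv_lhs => rw [← pb.basis.sum_repr g]
  rw [Finset.sum_eq_single (⟨j, by omega⟩ : Fin pb.dim) (fun i _ hi => by
    rw [h3 i (fun h => hi (Fin.ext h)), zero_smul]) (fun h => absurd (Finset.mem_univ _) h),
    pb.basis_eq_pow, Algebra.smul_def]

end One

/-- **Kummer theory**: two independent `p`-th roots generate an extension of degree `p ^ 2`. -/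
theorem kummer_two {F F' : Type*} [Field F] [Field F'] [Algebra F F'] {p : ℕ} (hp : p.Prime)
    {ζ : F} (hζ : IsPrimitiveRoot ζ p) {f₁ f₂ : F} {h₁ h₂ : F'}
    (e₁ : h₁ ^ p = algebraMap F F' f₁) (e₂ : h₂ ^ p = algebraMap F F' f₂)
    (hind : ∀ (a b : ℕ) (g : F), f₁ ^ a * f₂ ^ b = g ^ p → p ∣ a ∧ p ∣ b) :
    p ^ 2 ∣ Module.finrank F F' := by
  have hf₁ : ∀ g : F, g ^ p ≠ f₁ := by
    intro g hg
    have := (hind 1 0 g (by rw [pow_one, pow_zero, mul_one, hg])).1
    exact hp.one_lt.ne' (Nat.dvd_one.mp this)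
  have e₂' : h₂ ^ p = algebraMap F⟮h₁⟯ F' (algebraMap F F⟮h₁⟯ f₂) := by
    rw [e₂, ← IsScalarTower.algebraMap_apply]
  have hf₂ : ∀ g : F⟮h₁⟯, g ^ p ≠ algebraMap F F⟮h₁⟯ f₂ := by
    intro g hg
    obtain ⟨j, hj, c, hc⟩ := exists_eq_mul_pow hp hζ e₁ hf₁ hg
    have h1 : f₂ = c ^ p * f₁ ^ j := by
      apply (algebraMap F F').injective
      have h2 := congrArg (algebraMap F⟮h₁⟯ F') hg
      rw [← IsScalarTower.algebraMap_apply, hc, map_pow, map_mul, map_pow,
        AdjoinSimple.algebraMap_gen, ← IsScalarTower.algebraMap_apply, mul_pow, ← pow_mul,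
        mul_comm j p, pow_mul, e₁, ← map_pow, ← map_pow, ← map_mul] at h2
      exact h2.symm
    have h3 : f₁ ^ (p - j) * f₂ ^ 1 = (c * f₁) ^ p := by
      rw [h1, pow_one, mul_pow, mul_left_comm, ← pow_add, Nat.sub_add_cancel hj.le]
    exact hp.one_lt.ne' (Nat.dvd_one.mp (hind _ _ _ h3).2)
  have r₁ := finrank_adjoin hp e₁ hf₁
  have r₂ := finrank_adjoin hp e₂' hf₂
  rw [← Module.finrank_mul_finrank F F⟮h₁⟯ F', ← Module.finrank_mul_finrank F⟮h₁⟯ F⟮h₁⟯⟮h₂⟯ F',
    r₁, r₂, ← mul_assoc, sq]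
  exact dvd_mul_right _ _

end Fermat.Agent.LJ3
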