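import Fermat.Agent.LJ3.Pic
import Fermat.Agent.LLv.Eig

/-!
# S39/S40 block [J]: pull-back is injective on an irreducible two-dimensional Galois submodule
-/

set_option autoImplicit false
set_option linter.unusedSectionVars false
set_option linter.style.haveILetI false

noncomputable section

open Module ModularCurve AlgebraicCurve

attribute [-instance] Fermat.Agent.X0Places.ffField Fermat.Agent.X0Places.ffAlgebra

namespace Fermat.Agent.LJ3

open Fermat.Agent.TorsCmp Fermat.Agent.Degen Fermat.Agent.HeckeRed Fermat.Agent.FunField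

local notation "Qb" => AlgebraicClosure ℚ
local notation "GQ" => (AlgebraicClosure ℚ ≃ₐ[ℚ] AlgebraicClosure ℚ)

/-- the inclusion of modular function fields commutes with the arithmetic Galois action -/
theorem intertwines {M M' : ℕ} {δ : modularFunctionFieldBar M →ₐ[Qb] modularFunctionFieldBar M'}
    (hδ : ∀ x, (δ x : LaurentSeries Qb) = x) (σ : GQ) :
    SemilinearAut.IntertwinesAlong δ.toRingHom (arithmeticGalois (modularFunctionFieldFull M) σ)
      (arithmeticGalois (modularFunctionFieldFull M') σ) := by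
  intro x
  apply Subtype.ext
  show ((arithmeticGalois (modularFunctionFieldFull M') σ • δ x :
    modularFunctionFieldBar M') : LaurentSeries Qb) = ((δ (arithmeticGalois
      (modularFunctionFieldFull M) σ • x) : modularFunctionFieldBar M') : LaurentSeries Qb)
  rw [coe_arithmeticGalois_smul, hδ, hδ, coe_arithmeticGalois_smul]

/-- pull-back commutes with the Galois action -/
theorem pullPic_gal {M M' : ℕ} [NeZero M] [NeZero M']
    {δ : modularFunctionFieldBar M →ₐ[Qb] modularFunctionFieldBar M'}
    (hδ : ∀ x, (δ x : LaurentSeries Qb) = x) (σ : GQ) (c : JZero M) :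
    pullPic δ (σ • c) = σ • pullPic δ c :=
  pullPic_smul δ (intertwines hδ σ) c

/-- **Block [J].** -/
theorem pullPic_injective {M M' p : ℕ} [NeZero M] [NeZero M'] [hp : Fact p.Prime]
    {E : Type} [AddCommGroup E] [Module (ZMod p) E] [DistribMulAction GQ E]
    (hdim : Module.finrank (ZMod p) E = 2)
    (hirr : ∀ W : Submodule (ZMod p) E, (∀ g : GQ, ∀ x ∈ W, g • x ∈ W) → W = ⊥ ∨ W = ⊤)
    (ι : E →+ JZero M) (hι : Function.Injective ι) (hιg : ∀ (g : GQ) (x : E), ι (g • x) = g • ι x)
    (δ : modularFunctionFieldBar M →ₐ[Qb] modularFunctionFieldBar M')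
    (hδ : ∀ x, (δ x : LaurentSeries Qb) = x) (hdeg : ¬ p ^ 2 ∣ finrankAlong Qb δ) :
    ∀ x : E, pullPic δ (ι x) = 0 → x = 0 := by
  have hpE : ∀ x : E, p • x = 0 := by
    intro x
    rw [← Nat.cast_smul_eq_nsmul (ZMod p), ZMod.natCast_self, zero_smul]
  have hpι : ∀ x : E, p • ι x = 0 := by
    intro x
    rw [← map_nsmul, hpE, map_zero]
  -- the kernel
  let W : Submodule (ZMod p) E :=
    { carrier := {x | pullPic δ (ι x) = 0}
      add_mem' := by
        intro x y hx hy
        show pullPic δ (ι (x + y)) = 0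
        rw [map_add, map_add, show pullPic δ (ι x) = 0 from hx,
          show pullPic δ (ι y) = 0 from hy, add_zero]
      zero_mem' := by
        show pullPic δ (ι 0) = 0
        rw [map_zero, map_zero]
      smul_mem' := by
        intro c x hx
        show pullPic δ (ι (c • x)) = 0
        have h1 : c • x = c.val • x := by
          rw [← Nat.cast_smul_eq_nsmul (ZMod p), ZMod.natCast_val, ZMod.cast_id', id]
        rw [h1, map_nsmul, map_nsmul, show pullPic δ (ι x) = 0 from hx, smul_zero] }
  have hW : ∀ x, x ∈ W ↔ pullPic δ (ι x) = 0 := fun x => Iff.rfl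
  have hstable : ∀ g : GQ, ∀ x ∈ W, g • x ∈ W := by
    intro g x hx
    rw [hW] at hx ⊢
    rw [hιg]
    refine (pullPic_gal hδ g (ι x)).trans ?_
    rw [hx]
    exact smul_zero (A := JZero M') g
  rcases hirr W hstable with h | h
  · intro x hx
    have : x ∈ W := hx
    rw [h] at this
    exact (Submodule.mem_bot _).mp this
  · exfalso
    have hfin : Module.Finite (ZMod p) E := Module.finite_of_finrank_pos (by rw [hdim]; norm_num)
    let b := Module.finBasisOfFinrankEq (ZMod p) E hdim
    have hall : ∀ x, pullPic δ (ι x) = 0 := by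
      intro x
      have : x ∈ W := by rw [h]; trivial
      exact this
    obtain ⟨s, t, hst, hrel⟩ := exists_rel δ hp.out (Nat.cast_ne_zero.mpr hp.out.ne_zero) hdeg
      (hpι (b 0)) (hpι (b 1)) (hall _) (hall _)
    rw [← map_nsmul ι, ← map_nsmul ι, ← map_add] at hrel
    have h1 : s • b 0 + t • b 1 = 0 := hι (by rw [hrel, map_zero])
    rw [← Nat.cast_smul_eq_nsmul (ZMod p), ← Nat.cast_smul_eq_nsmul (ZMod p)] at h1
    have h2 := Fintype.linearIndependent_iff.mp b.linearIndependent ![(s : ZMod p), (t : ZMod p)]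
      (by rw [Fin.sum_univ_two]; exact h1)
    apply hst
    rw [← ZMod.natCast_eq_zero_iff, ← ZMod.natCast_eq_zero_iff]
    exact ⟨h2 0, h2 1⟩

/-- **Block [J]**, degree `4` or `6`, `p` odd. -/
theorem pullPic_injective' {M M' p : ℕ} [NeZero M] [NeZero M'] [hp : Fact p.Prime] (hp2 : p ≠ 2)
    {E : Type} [AddCommGroup E] [Module (ZMod p) E] [DistribMulAction GQ E]
    (hdim : Module.finrank (ZMod p) E = 2)
    (hirr : ∀ W : Submodule (ZMod p) E, (∀ g : GQ, ∀ x ∈ W, g • x ∈ W) → W = ⊥ ∨ W = ⊤)
    (ι : E →+ JZero M) (hι : Function.Injective ι) (hιg : ∀ (g : GQ) (x : E), ι (g • x) = g • ι x)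
    (δ : modularFunctionFieldBar M →ₐ[Qb] modularFunctionFieldBar M')
    (hδ : ∀ x, (δ x : LaurentSeries Qb) = x)
    (hdeg : finrankAlong Qb δ = 6 ∨ finrankAlong Qb δ = 4) :
    ∀ x : E, pullPic δ (ι x) = 0 → x = 0 := by
  refine pullPic_injective hdim hirr ι hι hιg δ hδ fun h => hp2 ?_
  have h3 : 3 ≤ p → False := by
    intro h3
    have h4 : p ^ 2 ≤ 6 := by
      rcases hdeg with h5 | h5
      · rw [h5] at h; exact Nat.le_of_dvd (by norm_num) h
      · rw [h5] at h; exact (Nat.le_of_dvd (by norm_num) h).trans (by norm_num)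
    have h5 : 3 ^ 2 ≤ p ^ 2 := Nat.pow_le_pow_left h3 2
    omega
  have h4 := hp.out.two_le
  by_contra h5
  exact h3 (by omega)

end Fermat.Agent.LJ3
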