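import Fermat.Agent.LJ3.Kum
import Fermat.Agent.Degen.Pic
import Fermat.Agent.WeilPairing.Pairing

/-!
# The kernel of pull-back on `p`-torsion classes has order at most `p` if `p² ∤ [F' : F]`
-/

set_option autoImplicit false
set_option linter.unusedSectionVars false
set_option linter.style.haveILetI false

noncomputable section

open AlgebraicCurve Module

namespace Fermat.Agent.LJ3

open Fermat.Agent.FunField Fermat.Agent.FunField.PlaceLemmas Fermat.Agent.HeckeRed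
open Fermat.Agent.Degen

variable {K F F' : Type*} [Field K] [IsAlgClosed K] [Field F] [Field F']
  [Algebra K F] [Algebra K F'] [IsFF K F] [IsFF K F']

/-- a `p`-torsion class killed by pull-back gives a function which becomes a `p`-th power -/
theorem exists_root (φ : F →ₐ[K] F') {p : ℕ} (hp : 0 < p)
    {D : Divisor.degZero (K := K) (F := F)} (h : p • Pic0.mk D = 0)
    (h0 : pullPic φ (Pic0.mk D) = 0) :
    ∃ f : F, f ≠ 0 ∧ p • (D : Divisor K F) = divOf f ∧ ∃ g : F', g ^ p = φ f := by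
  have e1 : p • Pic0.mk D = Pic0.mk (p • D) := rfl
  rw [e1, WeilPairing.mk_eq_zero_iff] at h
  obtain ⟨f, hf, hfD⟩ := h
  rw [pullPic_mk, WeilPairing.mk_eq_zero_iff] at h0
  obtain ⟨g, hg, hgD⟩ := h0
  have hfD' : p • (D : Divisor K F) = divOf f := hfD
  have hφ : φ f ≠ 0 := by rwa [Ne, map_eq_zero]
  have h1 : (divOf (φ f) : Divisor K F') = divOf (g ^ p) := by
    rw [WeilPairing.divOf_pow, ← hgD, coe_pullZ, ← pull_divOf, ← hfD', map_nsmul]
  obtain ⟨c, hc, e⟩ := WeilPairing.exists_const_of_divOf_eq hφ (pow_ne_zero p hg) h1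
  obtain ⟨c', hc'⟩ := IsAlgClosed.exists_pow_nat_eq c hp
  refine ⟨f, hf, hfD', algebraMap K F' c' * g, ?_⟩
  rw [mul_pow, ← map_pow, hc', e]

/-- **The kernel of pull-back on `p`-torsion is at most one-dimensional** if `p ^ 2 ∤ [F' : F]`. -/
theorem exists_rel (φ : F →ₐ[K] F') {p : ℕ} (hp : p.Prime) (hpK : (p : K) ≠ 0)
    (hdeg : ¬ p ^ 2 ∣ finrankAlong K φ) {x y : Pic0 K F} (hx : p • x = 0) (hy : p • y = 0)
    (hx0 : pullPic φ x = 0) (hy0 : pullPic φ y = 0) :
    ∃ a b : ℕ, ¬ (p ∣ a ∧ p ∣ b) ∧ a • x + b • y = 0 := by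
  obtain ⟨D, rfl⟩ := Pic0.mk_surjective x
  obtain ⟨E, rfl⟩ := Pic0.mk_surjective y
  obtain ⟨f₁, hf₁, hD, h₁, e₁⟩ := exists_root φ hp.pos hx hx0
  obtain ⟨f₂, hf₂, hE, h₂, e₂⟩ := exists_root φ hp.pos hy hy0
  haveI : NeZero (p : K) := ⟨hpK⟩
  obtain ⟨ζ, hζ⟩ := HasEnoughRootsOfUnity.exists_primitiveRoot K p
  letI : Algebra F F' := algebraAlong φ
  have hζF : IsPrimitiveRoot (algebraMap K F ζ) p := hζ.map_of_injective (algebraMap K F).injective
  by_contra hcon
  apply hdeg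
  refine kummer_two hp hζF (f₁ := f₁) (f₂ := f₂) (h₁ := h₁) (h₂ := h₂) e₁ e₂ ?_
  intro a b g hg
  by_contra hab
  apply hcon
  refine ⟨a, b, hab, ?_⟩
  have hg0 : g ≠ 0 := by
    rintro rfl
    rw [zero_pow hp.ne_zero] at hg
    exact mul_ne_zero (pow_ne_zero a hf₁) (pow_ne_zero b hf₂) hg
  have e : a • Pic0.mk D + b • Pic0.mk E = Pic0.mk (a • D + b • E) := rfl
  rw [e, WeilPairing.mk_eq_zero_iff]
  refine ⟨g, hg0, ?_⟩
  have h3 := congrArg (fun z => (divOf z : Divisor K F)) hg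
  simp only [WeilPairing.divOf_mul (pow_ne_zero a hf₁) (pow_ne_zero b hf₂),
    WeilPairing.divOf_pow, ← hD, ← hE] at h3
  have hp0 : (p : ℤ) ≠ 0 := Int.natCast_ne_zero.mpr hp.ne_zero
  ext v
  have h4 := DFunLike.congr_fun h3 v
  simp only [Finsupp.add_apply, Finsupp.smul_apply, smul_eq_mul, nsmul_eq_mul] at h4
  show (a • (D : Divisor K F) + b • (E : Divisor K F)) v = (divOf g : Divisor K F) v
  simp only [Finsupp.add_apply, Finsupp.smul_apply, smul_eq_mul, nsmul_eq_mul]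
  apply mul_left_cancel₀ hp0
  linear_combination h4

end Fermat.Agent.LJ3
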